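/-
Kummer's lemma, abstract algebra part 1: the index of `S - 1` on a free `ℤ`-module of finite rank
on which `1 + S + ... + S ^ (p - 1) = 0`.
-/
import Mathlib

set_option autoImplicit false

namespace Fermat.Agent.Kummer.KL

open Module Polynomial NumberField

variable {M : Type*} [AddCommGroup M] [Module.Free ℤ M] [Module.Finite ℤ M]

omit [Module.Finite ℤ M] in
/-- If `1 + S + ... + S ^ (p - 1) = 0` on a torsion-free `ℤ`-module then `S - 1` is injective. -/
theorem injective_sub_one_of_sum_pow_eq_zero (p : ℕ) [hp : Fact p.Prime] (S : M →ₗ[ℤ] M)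
    (hS : ∑ i ∈ Finset.range p, S ^ i = 0) : Function.Injective (S - 1 : M →ₗ[ℤ] M) := by
  rw [← LinearMap.ker_eq_bot, LinearMap.ker_eq_bot']
  intro m hm
  have hSm : S m = m := by
    have : S m - m = 0 := by simpa using hm
    exact sub_eq_zero.mp this
  have hpow : ∀ i : ℕ, (S ^ i) m = m := by
    intro i
    induction i with
    | zero => simp
    | succ i ih => rw [pow_succ, Module.End.mul_apply, hSm, ih]
  have h0 : (∑ i ∈ Finset.range p, S ^ i) m = 0 := by rw [hS]; rfl
  rw [LinearMap.sum_apply] at h0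
  simp only [hpow, Finset.sum_const, Finset.card_range] at h0
  have hp0 : (p : ℤ) ≠ 0 := by exact_mod_cast hp.out.ne_zero
  have : (p : ℤ) • m = 0 := by simpa using h0
  exact (smul_eq_zero.mp this).resolve_left hp0

/-- Index of `S - 1` -/
theorem card_quotient_range_sub_one_pow (p : ℕ) [hp : Fact p.Prime] (S : M →ₗ[ℤ] M)
    (hS : ∑ i ∈ Finset.range p, S ^ i = 0) :
    Nat.card (M ⧸ LinearMap.range (S - 1 : M →ₗ[ℤ] M)) ^ (p - 1) = p ^ finrank ℤ M := by
  classical
  have hinj := injective_sub_one_of_sum_pow_eq_zero p S hS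
  -- the cyclotomic field and the algebra map to `End M`
  let K := CyclotomicField p ℚ
  haveI : NeZero p := ⟨hp.out.ne_zero⟩
  haveI : IsCyclotomicExtension {p} ℚ K := CyclotomicField.isCyclotomicExtension p ℚ
  have hζ : IsPrimitiveRoot (IsCyclotomicExtension.zeta p ℚ K) p :=
    IsCyclotomicExtension.zeta_spec p ℚ K
  let pb := hζ.integralPowerBasis
  have hgen : pb.gen = hζ.toInteger := hζ.integralPowerBasis_gen
  have hmin : minpoly ℤ pb.gen = cyclotomic p ℤ := by
    rw [hgen]
    have h1 : cyclotomic p ℤ = minpoly ℤ (IsCyclotomicExtension.zeta p ℚ K) :=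
      cyclotomic_eq_minpoly hζ hp.out.pos
    rw [h1]
    exact (NumberField.RingOfIntegers.minpoly_coe hζ.toInteger).symm
  have haeval : aeval S (minpoly ℤ pb.gen) = 0 := by
    rw [hmin, cyclotomic_prime, map_sum]
    simpa using hS
  let φ : 𝓞 K →ₐ[ℤ] Module.End ℤ M := pb.lift S haeval
  have hφ : φ hζ.toInteger = S := by
    rw [← hgen]; exact pb.lift_gen S haeval
  obtain ⟨u, hu⟩ := IsCyclotomicExtension.Rat.associated_zeta_sub_one_pow_prime p hζ
  have h1 : (S - 1) ^ (p - 1) * φ u = (p : Module.End ℤ M) := by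
    have := congrArg φ hu
    simpa [hφ] using this
  have hdet : LinearMap.det (S - 1 : M →ₗ[ℤ] M) ^ (p - 1) * LinearMap.det (φ u) =
      (p : ℤ) ^ finrank ℤ M := by
    have := congrArg LinearMap.det h1
    rw [map_mul, map_pow] at this
    rw [this]
    have : (p : Module.End ℤ M) = (p : ℤ) • (1 : Module.End ℤ M) := by
      simp
    rw [this, LinearMap.det_smul]
    simp
  have hunit : IsUnit (LinearMap.det (φ u)) := by
    have : IsUnit (φ u) := (u.isUnit).map φ
    exact this.map LinearMap.det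
  have hnat : (LinearMap.det (S - 1 : M →ₗ[ℤ] M)).natAbs ^ (p - 1) = p ^ finrank ℤ M := by
    have := congrArg Int.natAbs hdet
    rw [Int.natAbs_mul, Int.natAbs_pow, Int.isUnit_iff_natAbs_eq.mp hunit, mul_one,
      Int.natAbs_pow, Int.natAbs_natCast] at this
    exact this
  rw [← hnat]
  congr 1
  let e : M ≃ₗ[ℤ] LinearMap.range (S - 1 : M →ₗ[ℤ] M) := LinearEquiv.ofInjective _ hinj
  have := Submodule.natAbs_det_equiv (LinearMap.range (S - 1 : M →ₗ[ℤ] M)) e
  rw [← this]
  congr 2

end Fermat.Agent.Kummer.KL
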