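/-
Kummer's lemma, abstract algebra part 2: an abstract form of (a special case of) Hilbert's
Theorem 92, for a finitely generated abelian group `E` with an automorphism `σ` of order `p`.
-/
import Fermat.Agent.Kummer.KL.IndexLemma

set_option autoImplicit false

namespace Fermat.Agent.Kummer.KL

open Module

section Rank

variable {E : Type*} [AddCommGroup E] [Module.Finite ℤ E]

/-- A torsion submodule has rank zero. -/
theorem finrank_eq_zero_of_le_torsion (N : Submodule ℤ E) (hN : N ≤ Submodule.torsion ℤ E) :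
    finrank ℤ N = 0 := by
  rw [finrank_eq_zero_iff_isTorsion]
  intro x
  obtain ⟨a, ha⟩ := (Submodule.mem_torsion_iff (x : E)).mp (hN x.2)
  exact ⟨a, Subtype.ext (by simpa using ha)⟩

/-- The quotient by the torsion submodule has the same rank. -/
theorem finrank_quotient_torsion :
    finrank ℤ (E ⧸ Submodule.torsion ℤ E) = finrank ℤ E := by
  have h := Submodule.finrank_quotient_add_finrank (Submodule.torsion ℤ E)
  rw [finrank_eq_zero_of_le_torsion _ le_rfl, add_zero] at h
  exact h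

/-- The image of a submodule in the quotient by the torsion has the same rank. -/
theorem finrank_map_mkQ_torsion (F : Submodule ℤ E) :
    finrank ℤ (F.map (Submodule.torsion ℤ E).mkQ) = finrank ℤ F := by
  set τ := Submodule.torsion ℤ E
  let g : F →ₗ[ℤ] (E ⧸ τ) := τ.mkQ.comp F.subtype
  have hrange : LinearMap.range g = F.map τ.mkQ := by
    rw [LinearMap.range_comp, Submodule.range_subtype]
  have h1 := Submodule.finrank_quotient_add_finrank (LinearMap.ker g)
  have h2 : finrank ℤ (LinearMap.ker g) = 0 := by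
    rw [finrank_eq_zero_iff_isTorsion]
    intro x
    have hx : τ.mkQ ((x : F) : E) = 0 := x.2
    rw [Submodule.mkQ_apply, Submodule.Quotient.mk_eq_zero] at hx
    obtain ⟨a, ha⟩ := (Submodule.mem_torsion_iff ((x : F) : E)).mp hx
    exact ⟨a, Subtype.ext (Subtype.ext (by simpa using ha))⟩
  rw [h2, add_zero] at h1
  rw [← h1, ← hrange]
  exact (LinearMap.quotKerEquivRange g).symm.finrank_eq

end Rank

section Abstract

variable {E : Type*} [AddCommGroup E] [Module.Finite ℤ E]
  (p : ℕ) [hp : Fact p.Prime] (σ : E →ₗ[ℤ] E) (hσ : σ ^ p = 1)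
  (F : Submodule ℤ E) (hF : ∀ f ∈ F, σ f = f)
  (hN : ∀ e, (∑ i ∈ Finset.range p, σ ^ i) e ∈ F)

include hσ in
omit [Module.Finite ℤ E] hp in
theorem norm_comp_sub_one (e : E) : (∑ i ∈ Finset.range p, σ ^ i) ((σ - 1) e) = 0 := by
  have h : (∑ i ∈ Finset.range p, σ ^ i) * (σ - 1) = 0 := by
    rw [geom_sum_mul, hσ, sub_self]
  have := congrArg (fun g : Module.End ℤ E => g e) h
  simpa using this

include hF in
omit [Module.Finite ℤ E] hp in
theorem norm_apply_of_mem {f : E} (hf : f ∈ F) :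
    (∑ i ∈ Finset.range p, σ ^ i) f = (p : ℤ) • f := by
  have hpow : ∀ i : ℕ, (σ ^ i) f = f := by
    intro i
    induction i with
    | zero => simp
    | succ i ih => rw [pow_succ, Module.End.mul_apply, hF f hf, ih]
  rw [LinearMap.sum_apply]
  simp [hpow]

include hσ hF hN in
omit [Module.Finite ℤ E] in
/-- Part (a): if every element of norm zero is in the range of `σ - 1`, then the index of
`range (σ - 1) ⊔ F` is at most `p ^ s`, where `F` is generated by `s` elements. -/
theorem index_le_of_forall_mem_range (t : Finset F) (ht : Submodule.span ℤ (t : Set F) = ⊤)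
    (hcon : ∀ η, (∑ i ∈ Finset.range p, σ ^ i) η = 0 → η ∈ LinearMap.range (σ - 1)) :
    Finite (E ⧸ (LinearMap.range (σ - 1) ⊔ F)) ∧
      Nat.card (E ⧸ (LinearMap.range (σ - 1) ⊔ F)) ≤ p ^ t.card := by
  classical
  set Nm : E →ₗ[ℤ] E := ∑ i ∈ Finset.range p, σ ^ i with hNm
  set R : Submodule ℤ E := LinearMap.range (σ - 1) with hR
  have hp0 : (p : ℤ) ≠ 0 := by exact_mod_cast hp.out.ne_zero
  let pF : Submodule ℤ F := Ideal.span {(p : ℤ)} • (⊤ : Submodule ℤ F)
  have hpF : ∀ y : F, y ∈ pF ↔ ∃ f : F, (p : ℤ) • f = y := by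
    intro y
    simp only [pF, Submodule.ideal_span_singleton_smul]
    rw [Submodule.mem_smul_pointwise_iff_exists]
    simp
  let N' : E →ₗ[ℤ] F := Nm.codRestrict F hN
  let ν : E →ₗ[ℤ] F ⧸ pF := pF.mkQ ∘ₗ N'
  have hker : LinearMap.ker ν = R ⊔ F := by
    apply le_antisymm
    · intro e he
      have he' : N' e ∈ pF := by
        have : pF.mkQ (N' e) = 0 := he
        rwa [Submodule.mkQ_apply, Submodule.Quotient.mk_eq_zero] at this
      obtain ⟨f, hf⟩ := (hpF _).mp he'
      have hfe : Nm e = (p : ℤ) • (f : E) := by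
        have := congrArg (fun z : F => (z : E)) hf
        simpa [N'] using this.symm
      have h0 : Nm (e - f) = 0 := by
        rw [map_sub, hfe, hNm, norm_apply_of_mem p σ F hF f.2, sub_self]
      have h1 : e - f ∈ R := hcon _ h0
      have : e = (e - f) + f := by abel
      rw [this]
      exact Submodule.add_mem_sup h1 f.2
    · rw [sup_le_iff]
      constructor
      · rintro _ ⟨e', rfl⟩
        have : N' ((σ - 1) e') = 0 := by
          apply Subtype.ext
          exact norm_comp_sub_one p σ hσ e'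
        change pF.mkQ (N' ((σ - 1) e')) = 0
        rw [this, map_zero]
      · intro f hf
        change pF.mkQ (N' f) = 0
        rw [Submodule.mkQ_apply, Submodule.Quotient.mk_eq_zero, hpF]
        refine ⟨⟨f, hf⟩, ?_⟩
        apply Subtype.ext
        exact (norm_apply_of_mem p σ F hF hf).symm
  -- finiteness and cardinality of `F ⧸ pF`
  have : Finite (ℤ ⧸ Ideal.span {(p : ℤ)}) := by
    have : Fintype (ℤ ⧸ Ideal.span {(p : ℤ)}) :=
      Fintype.ofEquiv (ZMod p) (Int.quotientSpanNatEquivZMod p).symm.toEquiv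
    infer_instance
  have : Finite (F ⧸ (⊤ : Submodule ℤ F)) := by
    have : Subsingleton (F ⧸ (⊤ : Submodule ℤ F)) := Submodule.Quotient.subsingleton_iff.mpr rfl
    infer_instance
  have hfin : Finite (F ⧸ pF) := Submodule.finite_quotient_smul _ ⟨t, ht⟩
  have hcard : Nat.card (F ⧸ pF) ≤ p ^ t.card := by
    have h := Submodule.index_smul_le (Ideal.span {(p : ℤ)}) t ht
    have h1 : (Ideal.span {(p : ℤ)}).toAddSubgroup.index = p := by
      change Nat.card (ℤ ⧸ Ideal.span {(p : ℤ)}) = p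
      rw [Nat.card_congr (Int.quotientSpanNatEquivZMod p).toEquiv, Nat.card_zmod]
    have h2 : (⊤ : Submodule ℤ F).toAddSubgroup.index = 1 := by
      simp
    rw [h1, h2, mul_one] at h
    exact h
  -- the injection `E ⧸ ker ν → F ⧸ pF`
  let ι : (E ⧸ LinearMap.ker ν) →ₗ[ℤ] F ⧸ pF := (LinearMap.ker ν).liftQ ν le_rfl
  have hι : Function.Injective ι := by
    rw [← LinearMap.ker_eq_bot]
    exact Submodule.ker_liftQ_eq_bot _ _ _ le_rfl
  rw [← hker]
  exact ⟨Finite.of_injective ι hι, (Nat.card_le_card_of_injective ι hι).trans hcard⟩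

end Abstract

section AbstractB

variable {E : Type*} [AddCommGroup E] [Module.Finite ℤ E]
  (p : ℕ) [hp : Fact p.Prime] (σ : E →ₗ[ℤ] E) (hσ : σ ^ p = 1)
  (F : Submodule ℤ E) (hF : ∀ f ∈ F, σ f = f)
  (hN : ∀ e, (∑ i ∈ Finset.range p, σ ^ i) e ∈ F)

omit [Module.Finite ℤ E] in
theorem torsion_le_comap (σ : E →ₗ[ℤ] E) :
    Submodule.torsion ℤ E ≤ (Submodule.torsion ℤ E).comap σ := by
  intro e he
  obtain ⟨a, ha⟩ := (Submodule.mem_torsion_iff e).mp he
  rw [Submodule.mem_comap, Submodule.mem_torsion_iff]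
  exact ⟨a, by rw [Submonoid.smul_def, ← map_smul, ← Submonoid.smul_def, ha, map_zero]⟩

/-- The endomorphism induced by `σ` on the quotient by the torsion. -/
noncomputable def quotTorsionMap (σ : E →ₗ[ℤ] E) :
    (E ⧸ Submodule.torsion ℤ E) →ₗ[ℤ] (E ⧸ Submodule.torsion ℤ E) :=
  (Submodule.torsion ℤ E).mapQ (Submodule.torsion ℤ E) σ (torsion_le_comap σ)

omit [Module.Finite ℤ E] in
theorem quotTorsionMap_mk (σ : E →ₗ[ℤ] E) (e : E) :
    quotTorsionMap σ ((Submodule.torsion ℤ E).mkQ e) = (Submodule.torsion ℤ E).mkQ (σ e) := rfl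

omit [Module.Finite ℤ E] in
theorem quotTorsionMap_pow_mk (σ : E →ₗ[ℤ] E) (i : ℕ) (e : E) :
    (quotTorsionMap σ ^ i) ((Submodule.torsion ℤ E).mkQ e) =
      (Submodule.torsion ℤ E).mkQ ((σ ^ i) e) := by
  induction i generalizing e with
  | zero => simp
  | succ i ih =>
    rw [pow_succ, Module.End.mul_apply, quotTorsionMap_mk, ih, pow_succ, Module.End.mul_apply]

include hσ hF hN in
/-- Part (b): there is a submodule `B` of index `p ^ s` containing `range (σ - 1)`, `F`, and all
`x` with `σ x - x` torsion. -/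
theorem exists_submodule_card_quotient (s : ℕ) (hE : finrank ℤ E + 1 = p * s)
    (hFr : finrank ℤ F + 1 = s) :
    ∃ B : Submodule ℤ E, LinearMap.range (σ - 1) ⊔ F ≤ B ∧
      (∀ x, σ x - x ∈ Submodule.torsion ℤ E → x ∈ B) ∧ Nat.card (E ⧸ B) = p ^ s := by
  classical
  set τ := Submodule.torsion ℤ E with hτ
  set σ' := quotTorsionMap σ with hσ'
  set Nm : E →ₗ[ℤ] E := ∑ i ∈ Finset.range p, σ ^ i with hNm
  have hp0 : (p : ℤ) ≠ 0 := by exact_mod_cast hp.out.ne_zero
  have hσ'p : σ' ^ p = 1 := by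
    ext e
    change (σ' ^ p) (τ.mkQ e) = τ.mkQ e
    rw [hσ', quotTorsionMap_pow_mk, hσ]
    rfl
  let T : (E ⧸ τ) →ₗ[ℤ] (E ⧸ τ) := σ' - 1
  have hσ'mk : ∀ e, σ' (τ.mkQ e) = τ.mkQ (σ e) := fun e => rfl
  have hcomm : ∀ l, σ' (T l) = T (σ' l) := by
    intro l; simp [T]
  have hnormT : ∀ l, (∑ i ∈ Finset.range p, σ' ^ i) (T l) = 0 := by
    intro l
    have h : (∑ i ∈ Finset.range p, σ' ^ i) * (σ' - 1) = 0 := by
      rw [geom_sum_mul, hσ'p, sub_self]
    have := LinearMap.congr_fun h l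
    rwa [Module.End.mul_apply, LinearMap.zero_apply] at this
  let M : Submodule ℤ (E ⧸ τ) := LinearMap.range T
  have hM : ∀ m ∈ M, σ' m ∈ M := by
    rintro _ ⟨l, rfl⟩
    exact ⟨σ' l, (hcomm l).symm⟩
  let S : M →ₗ[ℤ] M := σ'.restrict hM
  have hSpow : ∀ (i : ℕ) (m : M), ((S ^ i) m : E ⧸ τ) = (σ' ^ i) (m : E ⧸ τ) := by
    intro i
    induction i with
    | zero => intro m; simp
    | succ i ih =>
      intro m
      rw [pow_succ, Module.End.mul_apply, ih, pow_succ, Module.End.mul_apply]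
      rfl
  have hS : ∑ i ∈ Finset.range p, S ^ i = 0 := by
    ext m
    obtain ⟨l, hl⟩ := m.2
    rw [LinearMap.sum_apply]
    simp only [LinearMap.zero_apply, Submodule.coe_zero, Submodule.coe_sum, hSpow]
    rw [← hl]
    have := hnormT l
    rwa [LinearMap.sum_apply] at this
  have hindex := card_quotient_range_sub_one_pow p S hS
  -- rank computation
  have hrankΛ : finrank ℤ (E ⧸ τ) = finrank ℤ E := finrank_quotient_torsion
  have hrn : finrank ℤ M + finrank ℤ (LinearMap.ker T) = finrank ℤ (E ⧸ τ) := by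
    rw [← Submodule.finrank_quotient_add_finrank (LinearMap.ker T)]
    congr 1
    exact (LinearMap.quotKerEquivRange T).symm.finrank_eq
  have hkerT : ∀ l, l ∈ LinearMap.ker T ↔ σ' l = l := by
    intro l
    rw [LinearMap.mem_ker]
    simp only [T, LinearMap.sub_apply, Module.End.one_apply]
    exact sub_eq_zero
  have hFker : F.map τ.mkQ ≤ LinearMap.ker T := by
    rintro _ ⟨f, hf, rfl⟩
    rw [hkerT, hσ', quotTorsionMap_mk, hF f hf]
  have hker1 : finrank ℤ (F.map τ.mkQ) ≤ finrank ℤ (LinearMap.ker T) :=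
    LinearMap.finrank_le_finrank_of_injective (Submodule.inclusion_injective hFker)
  have hker2 : finrank ℤ (LinearMap.ker T) ≤ finrank ℤ (F.map τ.mkQ) := by
    have hmem : ∀ k : LinearMap.ker T, (p : ℤ) • (k : E ⧸ τ) ∈ F.map τ.mkQ := by
      intro k
      obtain ⟨e, he⟩ := τ.mkQ_surjective (k : E ⧸ τ)
      have hk : σ' (k : E ⧸ τ) = k := (hkerT _).mp k.2
      have hpow : ∀ i : ℕ, (σ' ^ i) (k : E ⧸ τ) = k := by
        intro i
        induction i with
        | zero => simp
        | succ i ih => rw [pow_succ, Module.End.mul_apply, hk, ih]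
      have h1 : (∑ i ∈ Finset.range p, σ' ^ i) (k : E ⧸ τ) = (p : ℤ) • (k : E ⧸ τ) := by
        rw [LinearMap.sum_apply]
        simp [hpow]
      have h2 : (∑ i ∈ Finset.range p, σ' ^ i) (k : E ⧸ τ) = τ.mkQ (Nm e) := by
        rw [← he, LinearMap.sum_apply, hNm, LinearMap.sum_apply, map_sum]
        refine Finset.sum_congr rfl (fun i _ => ?_)
        rw [hσ', quotTorsionMap_pow_mk]
      rw [← h1, h2]
      exact ⟨Nm e, hN e, rfl⟩
    let g : LinearMap.ker T →ₗ[ℤ] F.map τ.mkQ :=
      { toFun := fun k => ⟨(p : ℤ) • (k : E ⧸ τ), hmem k⟩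
        map_add' := fun a b => Subtype.ext (by
          change (p : ℤ) • ((a : E ⧸ τ) + (b : E ⧸ τ)) = (p : ℤ) • (a : E ⧸ τ) + (p : ℤ) • (b : E ⧸ τ)
          rw [smul_add])
        map_smul' := fun c a => Subtype.ext (by
          change (p : ℤ) • (c • (a : E ⧸ τ)) = c • ((p : ℤ) • (a : E ⧸ τ))
          rw [smul_comm]) }
    have hg : Function.Injective g := by
      intro a b hab
      have : (p : ℤ) • (a : E ⧸ τ) = (p : ℤ) • (b : E ⧸ τ) := congrArg Subtype.val hab
      exact Subtype.ext (smul_right_injective _ hp0 this)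
    exact LinearMap.finrank_le_finrank_of_injective hg
  have hkerrank : finrank ℤ (LinearMap.ker T) = finrank ℤ F := by
    rw [← finrank_map_mkQ_torsion F]
    exact le_antisymm hker2 hker1
  have hp1 : 1 ≤ p := hp.out.one_lt.le
  have hs1 : 1 ≤ s := by omega
  have hrankM : finrank ℤ M = (p - 1) * s := by
    have h1 : finrank ℤ M + finrank ℤ F + 1 = p * s := by
      rw [← hE, ← hrankΛ, ← hrn, hkerrank]
    have h2 : finrank ℤ M + s = p * s := by omega
    have h3 : p * s = (p - 1) * s + s := by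
      conv_lhs => rw [show p = (p - 1) + 1 by omega]
      ring
    omega
  have hcardM : Nat.card (M ⧸ LinearMap.range (S - 1 : M →ₗ[ℤ] M)) = p ^ s := by
    rw [hrankM, mul_comm, pow_mul] at hindex
    have hp2 : p - 1 ≠ 0 := by have := hp.out.two_le; omega
    exact Nat.pow_left_injective hp2 hindex
  -- the map `ψ`
  let ψ : E →ₗ[ℤ] M ⧸ LinearMap.range (S - 1 : M →ₗ[ℤ] M) :=
    (LinearMap.range (S - 1 : M →ₗ[ℤ] M)).mkQ ∘ₗ T.rangeRestrict ∘ₗ τ.mkQ
  have hψsurj : Function.Surjective ψ :=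
    ((LinearMap.range (S - 1 : M →ₗ[ℤ] M)).mkQ_surjective.comp
      T.surjective_rangeRestrict).comp τ.mkQ_surjective
  refine ⟨LinearMap.ker ψ, ?_, ?_, ?_⟩
  · rw [sup_le_iff]
    constructor
    · rintro _ ⟨e, rfl⟩
      rw [LinearMap.mem_ker]
      change (LinearMap.range (S - 1 : M →ₗ[ℤ] M)).mkQ (T.rangeRestrict (τ.mkQ ((σ - 1) e))) = 0
      rw [Submodule.mkQ_apply, Submodule.Quotient.mk_eq_zero]
      refine ⟨T.rangeRestrict (τ.mkQ e), ?_⟩
      apply Subtype.ext
      change σ' (T (τ.mkQ e)) - T (τ.mkQ e) = T (τ.mkQ ((σ - 1) e))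
      simp only [T, LinearMap.sub_apply, Module.End.one_apply, map_sub, hσ'mk]
    · intro f hf
      rw [LinearMap.mem_ker]
      change (LinearMap.range (S - 1 : M →ₗ[ℤ] M)).mkQ (T.rangeRestrict (τ.mkQ f)) = 0
      have : T.rangeRestrict (τ.mkQ f) = 0 := by
        apply Subtype.ext
        change T (τ.mkQ f) = 0
        have := hFker ⟨f, hf, rfl⟩
        exact this
      rw [this, map_zero]
  · intro x hx
    rw [LinearMap.mem_ker]
    change (LinearMap.range (S - 1 : M →ₗ[ℤ] M)).mkQ (T.rangeRestrict (τ.mkQ x)) = 0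
    have : T.rangeRestrict (τ.mkQ x) = 0 := by
      apply Subtype.ext
      change T (τ.mkQ x) = 0
      simp only [T, LinearMap.sub_apply, Module.End.one_apply, hσ'mk]
      rw [← map_sub, Submodule.mkQ_apply, Submodule.Quotient.mk_eq_zero]
      exact hx
    rw [this, map_zero]
  · rw [Nat.card_congr (LinearMap.quotKerEquivOfSurjective ψ hψsurj).toEquiv, hcardM]

end AbstractB

section AbstractC

variable {E : Type*} [AddCommGroup E] [Module.Finite ℤ E]
  (p : ℕ) [hp : Fact p.Prime] (σ : E →ₗ[ℤ] E) (hσ : σ ^ p = 1)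
  (F : Submodule ℤ E) (hF : ∀ f ∈ F, σ f = f)
  (hN : ∀ e, (∑ i ∈ Finset.range p, σ ^ i) e ∈ F)

include hσ hF hN in
/-- **Abstract form of Hilbert's Theorem 92** (special case).  Let `E` be a finitely generated
abelian group with an automorphism `σ` such that `σ ^ p = 1`, and `F` a subgroup fixed by `σ`
containing all norms, such that `rank E + 1 = p * s`, `rank F + 1 = s` and `F` is generated by at
most `s` elements.  If there is `x ∉ (σ - 1) E + F` such that `σ x - x` is torsion, then there is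
`η` of norm zero which is not in `(σ - 1) E`. -/
theorem exists_norm_eq_zero_not_mem_range (s : ℕ) (hE : finrank ℤ E + 1 = p * s)
    (hFr : finrank ℤ F + 1 = s) (t : Finset F) (ht : Submodule.span ℤ (t : Set F) = ⊤)
    (htc : t.card ≤ s) (x : E) (hx : σ x - x ∈ Submodule.torsion ℤ E)
    (hx' : x ∉ LinearMap.range (σ - 1) ⊔ F) :
    ∃ η, (∑ i ∈ Finset.range p, σ ^ i) η = 0 ∧ η ∉ LinearMap.range (σ - 1) := by
  by_contra hcon
  push Not at hcon
  obtain ⟨hfin, hcard⟩ := index_le_of_forall_mem_range p σ hσ F hF hN t ht hcon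
  obtain ⟨B, hAB, hxB, hB⟩ := exists_submodule_card_quotient p σ hσ F hF hN s hE hFr
  set A : Submodule ℤ E := LinearMap.range (σ - 1) ⊔ F with hA
  have hp1 : 1 < p := hp.out.one_lt
  have hcard' : Nat.card (E ⧸ A) ≤ p ^ s :=
    hcard.trans (Nat.pow_le_pow_right hp1.le htc)
  have hidxA : A.toAddSubgroup.index = Nat.card (E ⧸ A) := rfl
  have hidxB : B.toAddSubgroup.index = Nat.card (E ⧸ B) := rfl
  have hle : A.toAddSubgroup ≤ B.toAddSubgroup := fun y hy => hAB hy
  have hmul := AddSubgroup.relIndex_mul_index hle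
  have hApos : A.toAddSubgroup.index ≠ 0 := by
    rw [hidxA]
    exact Nat.card_pos.ne'
  have hr0 : A.toAddSubgroup.relIndex B.toAddSubgroup ≠ 0 := by
    intro h
    rw [h, zero_mul] at hmul
    exact hApos hmul.symm
  have hr1 : A.toAddSubgroup.relIndex B.toAddSubgroup ≠ 1 := by
    intro h
    rw [AddSubgroup.relIndex_eq_one] at h
    exact hx' (h (hxB x hx))
  have hr2 : 2 ≤ A.toAddSubgroup.relIndex B.toAddSubgroup := by omega
  have hps : 0 < p ^ s := pow_pos (by omega) s
  rw [hidxB, hB, hidxA] at hmul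
  have : 2 * p ^ s ≤ Nat.card (E ⧸ A) := by
    rw [← hmul]
    exact Nat.mul_le_mul_right _ hr2
  omega

end AbstractC

end Fermat.Agent.Kummer.KL
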