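import Mathlib

set_option autoImplicit false

namespace Fermat.Agent.Kummer.KL

open NumberField Module

namespace Hilbert94

/-- Hilbert's Theorem 90 for cyclic extensions, universe-polymorphic (via the Lagrange resolvent). -/
theorem hilbert90 {K L : Type*} [Field K] [Field L] [Algebra K L] [FiniteDimensional K L]
    [IsGalois K L] (σ : L ≃ₐ[K] L) (hσ : ∀ τ : L ≃ₐ[K] L, τ ∈ Subgroup.zpowers σ) {x : L}
    (hx : Algebra.norm K x = 1) : ∃ y : L, y ≠ 0 ∧ x * σ y = y := by
  classical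
  have hnpos : 0 < orderOf σ := orderOf_pos σ
  let F : ℕ → L := fun k => ∏ j ∈ Finset.range k, (σ ^ j) x
  have hF0 : F 0 = 1 := by simp [F]
  have hFsucc : ∀ k, F (k+1) = x * σ (F k) := by
    intro k
    simp only [F]
    rw [Finset.prod_range_succ', map_prod, mul_comm]
    simp [pow_succ']
  have hFn : F (orderOf σ) = 1 := by
    have h1 : ∏ τ : L ≃ₐ[K] L, τ x = F (orderOf σ) := by
      rw [← IsCyclic.image_range_orderOf hσ, Finset.prod_image]
      intro i hi j hj hij
      exact pow_injOn_Iio_orderOf (by simpa using hi) (by simpa using hj) hij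
    rw [← h1, ← Algebra.norm_eq_prod_automorphisms, hx, map_one]
  have hli : LinearIndependent L
      (fun i : Fin (orderOf σ) => ((σ ^ (i : ℕ) : L ≃ₐ[K] L) : L → L)) := by
    refine LinearIndependent.comp (linearIndependent_monoidHom L L)
      (fun i : Fin (orderOf σ) => ((σ ^ (i : ℕ) : L ≃ₐ[K] L) : L →* L)) ?_
    intro i j hij
    have h2 : σ ^ (i : ℕ) = σ ^ (j : ℕ) := by
      ext z
      exact DFunLike.congr_fun hij z
    exact Fin.ext (pow_injOn_Iio_orderOf (by simp) (by simp) h2)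
  obtain ⟨θ, hθ⟩ : ∃ θ, ∑ i ∈ Finset.range (orderOf σ), F i * (σ ^ i) θ ≠ 0 := by
    by_contra hcon
    push Not at hcon
    have h3 := Fintype.linearIndependent_iff.mp hli (fun i => F i) (by
      funext θ
      have := hcon θ
      rw [Finset.sum_range (fun i => F i * (σ ^ i) θ)] at this
      simpa [Finset.sum_apply] using this) ⟨0, hnpos⟩
    simp [hF0] at h3
  refine ⟨_, hθ, ?_⟩
  rw [map_sum, Finset.mul_sum]
  have h4 : ∀ i ∈ Finset.range (orderOf σ),
      x * σ (F i * (σ ^ i) θ) = F (i + 1) * (σ ^ (i + 1)) θ := by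
    intro i _
    rw [map_mul, ← mul_assoc, ← hFsucc, pow_succ']
    rfl
  rw [Finset.sum_congr rfl h4]
  have h5 := Finset.sum_range_succ' (fun i => F i * (σ ^ i) θ) (orderOf σ)
  have h6 := Finset.sum_range_succ (fun i => F i * (σ ^ i) θ) (orderOf σ)
  simp only [hF0, hFn, pow_orderOf_eq_one, pow_zero, AlgEquiv.one_apply, one_mul] at h5 h6
  rw [h6] at h5
  exact (add_right_cancel h5).symm

/-- Integral version of Hilbert 90 for rings of integers of number fields. -/
theorem hilbert90_int {K : Type*} [Field K] [NumberField K] {L : Type*} [Field L] [NumberField L]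
    [Algebra K L] [IsGalois K L] (σ : L ≃ₐ[K] L) (hσ : ∀ τ : L ≃ₐ[K] L, τ ∈ Subgroup.zpowers σ)
    {η : 𝓞 L} (hη : Algebra.norm K (η : L) = 1) : ∃ β : 𝓞 L, β ≠ 0 ∧ η * σ • β = β := by
  obtain ⟨y, hy0, hy⟩ := hilbert90 σ hσ hη
  have halg : IsAlgebraic ℤ y :=
    (IsFractionRing.isAlgebraic_iff ℤ ℚ L).mpr (Algebra.IsAlgebraic.isAlgebraic y)
  obtain ⟨m, hm0, hm⟩ := halg.exists_integral_multiple
  refine ⟨⟨m • y, hm⟩, ?_, ?_⟩
  · intro h0
    have h1 : m • y = 0 := congrArg (fun z : 𝓞 L => (z : L)) h0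
    rcases smul_eq_zero.mp h1 with h | h
    · exact hm0 h
    · exact hy0 h
  · apply RingOfIntegers.ext
    show (η : L) * σ (m • y) = m • y
    rw [map_zsmul, mul_smul_comm, hy]

variable {K : Type*} [Field K] [NumberField K] {L : Type*} [Field L] [NumberField L] [Algebra K L]

omit [NumberField K] [NumberField L] in
/-- The Galois action fixes the image of `𝓞 K` in `𝓞 L`. -/
theorem smul_algebraMap_eq (τ : L ≃ₐ[K] L) (x : 𝓞 K) :
    τ • (algebraMap (𝓞 K) (𝓞 L) x) = algebraMap (𝓞 K) (𝓞 L) x := by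
  apply RingOfIntegers.ext
  show τ ((algebraMap (𝓞 K) (𝓞 L) x : 𝓞 L) : L) = _
  have h : ((algebraMap (𝓞 K) (𝓞 L) x : 𝓞 L) : L) = algebraMap K L (x : K) :=
    (IsScalarTower.algebraMap_apply (𝓞 K) (𝓞 L) L x).symm.trans
      (IsScalarTower.algebraMap_apply (𝓞 K) K L x)
  rw [h, τ.commutes]

/-- The image of the relative norm in `𝓞 L` is the product of the Galois conjugates. -/
theorem algebraMap_norm_eq_prod [IsGalois K L] (β : 𝓞 L) :
    algebraMap (𝓞 K) (𝓞 L) (RingOfIntegers.norm K β) = ∏ τ : L ≃ₐ[K] L, τ • β := by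
  apply RingOfIntegers.ext
  rw [RingOfIntegers.coe_algebraMap_norm, Algebra.norm_eq_prod_automorphisms]
  show _ = algebraMap (𝓞 L) L (∏ τ : L ≃ₐ[K] L, τ • β)
  rw [map_prod]
  rfl

/-- In the unramified case, a prime element of `𝓞 K` generates a radical ideal of `𝓞 L`. -/
theorem dvd_of_dvd_pow (hdiff : differentIdeal (𝓞 K) (𝓞 L) = ⊤) {π : 𝓞 K} (hπ : Prime π)
    {x : 𝓞 L} {n : ℕ} (hn : n ≠ 0) (h : algebraMap (𝓞 K) (𝓞 L) π ∣ x ^ n) :
    algebraMap (𝓞 K) (𝓞 L) π ∣ x := by
  have hprime : (Ideal.span {π}).IsPrime := (Ideal.span_singleton_prime hπ.ne_zero).mpr hπ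
  have hbot : Ideal.span {π} ≠ ⊥ := by
    rw [Ne, Ideal.span_singleton_eq_bot]; exact hπ.ne_zero
  have hmax : (Ideal.span {π}).IsMaximal := hprime.isMaximal hbot
  have hmap : (Ideal.span {π}).map (algebraMap (𝓞 K) (𝓞 L)) =
      Ideal.span {algebraMap (𝓞 K) (𝓞 L) π} := by
    rw [Ideal.map_span, Set.image_singleton]
  have hπ' : algebraMap (𝓞 K) (𝓞 L) π ≠ 0 := by
    rw [Ne, map_eq_zero_iff _ (FaithfulSMul.algebraMap_injective (𝓞 K) (𝓞 L))]
    exact hπ.ne_zero
  have hI0 : Ideal.span {algebraMap (𝓞 K) (𝓞 L) π} ≠ 0 := by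
    rw [Ne, Ideal.zero_eq_bot, Ideal.span_singleton_eq_bot]; exact hπ'
  have hsq : Squarefree (Ideal.span {algebraMap (𝓞 K) (𝓞 L) π}) := by
    rw [squarefree_iff_irreducible_sq_not_dvd_of_ne_zero hI0]
    intro P hP hPP
    have h1 : P ^ (2 - 1) ∣ differentIdeal (𝓞 K) (𝓞 L) := by
      apply pow_sub_one_dvd_differentIdeal (𝓞 K) P 2 hbot
      rw [hmap, sq]; exact hPP
    rw [hdiff] at h1
    simp only [Nat.add_one_sub_one, pow_one] at h1
    have : P = ⊤ := by
      rw [Ideal.dvd_iff_le] at h1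
      exact top_le_iff.mp h1
    exact hP.not_isUnit (Ideal.isUnit_iff.mpr this)
  have h2 : Ideal.span {algebraMap (𝓞 K) (𝓞 L) π} ∣ (Ideal.span {x}) ^ n := by
    rw [Ideal.span_singleton_pow, Ideal.dvd_span_singleton, Ideal.mem_span_singleton]
    exact h
  rw [hsq.dvd_pow_iff_dvd hn, Ideal.dvd_span_singleton, Ideal.mem_span_singleton] at h2
  exact h2

/-- If all Galois conjugates of `β` are associated to `β`, then the image of the norm of `β` is
associated to a power of `β`. -/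
theorem associated_norm_pow [IsGalois K L] {β : 𝓞 L}
    (hinv : ∀ τ : L ≃ₐ[K] L, Associated (τ • β) β) :
    Associated (algebraMap (𝓞 K) (𝓞 L) (RingOfIntegers.norm K β))
      (β ^ Fintype.card (L ≃ₐ[K] L)) := by
  rw [algebraMap_norm_eq_prod]
  choose u hu using hinv
  refine ⟨∏ τ : L ≃ₐ[K] L, u τ, ?_⟩
  rw [Units.coe_prod, ← Finset.prod_mul_distrib, Finset.prod_congr rfl (fun τ _ => hu τ),
    Finset.prod_const, Finset.card_univ]

/-- Descent: a nonzero Galois-invariant (up to units) element of `𝓞 L` is, in the unramified case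
over a PID, associated to an element of `𝓞 K`. -/
theorem exists_associated_algebraMap [IsPrincipalIdealRing (𝓞 K)] [IsGalois K L]
    (hdiff : differentIdeal (𝓞 K) (𝓞 L) = ⊤) (β : 𝓞 L) :
    β ≠ 0 → (∀ τ : L ≃ₐ[K] L, Associated (τ • β) β) →
      ∃ b : 𝓞 K, Associated (algebraMap (𝓞 K) (𝓞 L) b) β := by
  induction β using (wellFounded_dvdNotUnit (α := 𝓞 L)).induction with
  | _ β ih =>
    intro hβ hinv
    by_cases hu : IsUnit β
    · refine ⟨1, ?_⟩
      rw [map_one]
      exact (associated_one_iff_isUnit.mpr hu).symm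
    -- the norm is a nonzero nonunit
    have hN0 : RingOfIntegers.norm K β ≠ 0 := by
      intro h0
      have h00 := (associated_norm_pow hinv).symm
      rw [h0, map_zero, associated_zero_iff_eq_zero] at h00
      exact hβ (pow_eq_zero_iff Fintype.card_ne_zero |>.mp h00)
    have hNu : ¬ IsUnit (RingOfIntegers.norm K β) := by
      rw [RingOfIntegers.isUnit_norm]; exact hu
    obtain ⟨π, hπirr, hπdvd⟩ := WfDvdMonoid.exists_irreducible_factor hNu hN0
    have hπ : Prime π := hπirr.prime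
    have hcard : Fintype.card (L ≃ₐ[K] L) ≠ 0 := Fintype.card_ne_zero
    -- `π ∣ β ^ card` in `𝓞 L`
    have h1 : algebraMap (𝓞 K) (𝓞 L) π ∣ β ^ Fintype.card (L ≃ₐ[K] L) :=
      ((map_dvd (algebraMap (𝓞 K) (𝓞 L)) hπdvd).trans (associated_norm_pow hinv).dvd)
    obtain ⟨β', hβ'⟩ := dvd_of_dvd_pow hdiff hπ hcard h1
    have hπ'0 : algebraMap (𝓞 K) (𝓞 L) π ≠ 0 := by
      rw [Ne, map_eq_zero_iff _ (FaithfulSMul.algebraMap_injective (𝓞 K) (𝓞 L))]
      exact hπ.ne_zero
    have hπ'u : ¬ IsUnit (algebraMap (𝓞 K) (𝓞 L) π) := by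
      intro hunit
      have h2 := (RingOfIntegers.isUnit_norm K).mpr hunit
      rw [RingOfIntegers.norm_algebraMap] at h2
      exact hπ.not_isUnit ((isUnit_pow_iff (Module.finrank_pos (R := K) (M := L)).ne').mp h2)
    have hβ'0 : β' ≠ 0 := by
      rintro rfl
      exact hβ (by rw [hβ', mul_zero])
    have hinv' : ∀ τ : L ≃ₐ[K] L, Associated (τ • β') β' := by
      intro τ
      have h3 := hinv τ
      rw [hβ', smul_mul', smul_algebraMap_eq] at h3
      exact h3.of_mul_left (Associated.refl _) hπ'0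
    obtain ⟨b', hb'⟩ := ih β' ⟨hβ'0, algebraMap (𝓞 K) (𝓞 L) π, hπ'u, by rw [hβ', mul_comm]⟩
      hβ'0 hinv'
    refine ⟨π * b', ?_⟩
    rw [map_mul, hβ']
    exact Associated.mul_left _ hb'

end Hilbert94

open Hilbert94 in
/-- (C2) Hilbert 94-type step in the PID case.  Let `L / K` be a cyclic extension of number fields of
degree `p`, generated by `σ`, with trivial different (unramified everywhere), and assume `𝓞 K` is a
PID.  Then every unit `η` of `𝓞 L` of relative norm `1` is of the form `ε / σ ε` with `ε` a UNIT.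
(Math: Hilbert 90 (`exists_mul_galRestrict_of_norm_eq_one`) gives `β ∈ 𝓞 L`, `β ≠ 0`,
`η * σ β = β`; then `N β = β ^ p * unit`; factor `N β` in the PID `𝓞 K`; unramifiedness
(`pow_sub_one_dvd_differentIdeal` with `e = 2`) shows every prime exponent is divisible by `p`, so
`N β = unit * a ^ p`, hence `β / a` is a unit `ε` and `η * σ ε = ε`.) -/
theorem exists_unit_mul_smul_eq_of_norm_eq_one {p : ℕ} [Fact p.Prime]
    {K : Type*} [Field K] [NumberField K] [IsPrincipalIdealRing (𝓞 K)]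
    {L : Type*} [Field L] [NumberField L] [Algebra K L] [IsGalois K L]
    (hpL : finrank K L = p) (σ : L ≃ₐ[K] L) (hσ : ∀ τ : L ≃ₐ[K] L, τ ∈ Subgroup.zpowers σ)
    (hdiff : differentIdeal (𝓞 K) (𝓞 L) = ⊤)
    (η : (𝓞 L)ˣ) (hη : Algebra.norm K (((η : (𝓞 L)ˣ) : 𝓞 L) : L) = 1) :
    ∃ ε : (𝓞 L)ˣ, (η : 𝓞 L) * σ • (ε : 𝓞 L) = (ε : 𝓞 L) := by
  obtain ⟨β, hβ0, hβ⟩ := hilbert90_int σ hσ (η := (η : 𝓞 L)) hη
  -- `σ • β` is associated to `β`
  have hσβ : Associated (σ • β) β := ⟨η, by rw [mul_comm]; exact hβ⟩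
  -- hence so are all conjugates
  have hinv : ∀ τ : L ≃ₐ[K] L, Associated (τ • β) β := by
    intro τ
    have hmem := hσ τ
    let S : Subgroup (L ≃ₐ[K] L) :=
      { carrier := {τ | Associated (τ • β) β}
        one_mem' := by simp
        mul_mem' := by
          intro a b ha hb
          simp only [Set.mem_ofPred_eq] at ha hb ⊢
          rw [mul_smul]
          obtain ⟨u, hu⟩ := hb
          have hb' : b • β = β * ((u⁻¹ : (𝓞 L)ˣ) : 𝓞 L) := (Units.eq_mul_inv_iff_mul_eq u).mpr hu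
          have : a • b • β = a • β * a • ((u⁻¹ : (𝓞 L)ˣ) : 𝓞 L) := by
            rw [hb', smul_mul']
          rw [this]
          have hunit : IsUnit (a • ((u⁻¹ : (𝓞 L)ˣ) : 𝓞 L)) :=
            (u⁻¹).isUnit.map (MulSemiringAction.toRingHom (L ≃ₐ[K] L) (𝓞 L) a)
          exact (associated_mul_unit_left _ _ hunit).trans ha
        inv_mem' := by
          intro a ha
          simp only [Set.mem_ofPred_eq] at ha ⊢
          obtain ⟨u, hu⟩ := ha
          have : a⁻¹ • β = β * a⁻¹ • (u : 𝓞 L) := by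
            conv_lhs => rw [← hu]
            rw [smul_mul', inv_smul_smul]
          have hunit : IsUnit (a⁻¹ • (u : 𝓞 L)) :=
            u.isUnit.map (MulSemiringAction.toRingHom (L ≃ₐ[K] L) (𝓞 L) a⁻¹)
          rw [this]
          exact associated_mul_unit_left _ _ hunit }
    have hσS : σ ∈ S := hσβ
    have : Subgroup.zpowers σ ≤ S := by
      rw [Subgroup.zpowers_le]; exact hσS
    exact this hmem
  obtain ⟨b, ε, hε⟩ := exists_associated_algebraMap hdiff β hβ0 hinv
  have hb0 : algebraMap (𝓞 K) (𝓞 L) b ≠ 0 := by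
    rintro h0
    rw [h0, zero_mul] at hε
    exact hβ0 hε.symm
  refine ⟨ε, ?_⟩
  rw [← hε, smul_mul', smul_algebraMap_eq] at hβ
  apply mul_left_cancel₀ hb0
  rw [← hβ]; ring

end Fermat.Agent.Kummer.KL
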