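-- Kummer lemma slice C3a (owner: helper9): unit ranks.
import Mathlib

set_option autoImplicit false

namespace Fermat.Agent.Kummer.KL

open NumberField Module

/-- (C3a-1) Unit rank of the `p`-th cyclotomic field. -/
theorem finrank_units_cyclotomic {p : ℕ} [Fact p.Prime] (hp2 : p ≠ 2)
    (K : Type*) [Field K] [NumberField K] [IsCyclotomicExtension {p} ℚ K] :
    finrank ℤ (Additive (𝓞 K)ˣ) + 1 = (p - 1) / 2 := by
  have hpp : p.Prime := Fact.out
  have h3 : 3 ≤ p := by have := hpp.two_le; omega
  rw [Units.finrank_eq, Units.rank, InfinitePlace.card_eq_nrRealPlaces_add_nrComplexPlaces,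
    IsCyclotomicExtension.Rat.nrRealPlaces_eq_zero K (by omega : 2 < p),
    IsCyclotomicExtension.Rat.nrComplexPlaces_eq_totient_div_two (n := p) K,
    Nat.totient_prime hpp, zero_add]
  have : 1 ≤ (p - 1) / 2 := by omega
  omega

/-- (C3a-2) Unit rank of a degree `p` extension of the `p`-th cyclotomic field (it is totally
complex of degree `p * (p - 1)` over `ℚ`). -/
theorem finrank_units_of_finrank_eq {p : ℕ} [Fact p.Prime] (hp2 : p ≠ 2)
    (K : Type*) [Field K] [NumberField K] [IsCyclotomicExtension {p} ℚ K]
    (L : Type*) [Field L] [NumberField L] [Algebra K L] (hpL : finrank K L = p) :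
    finrank ℤ (Additive (𝓞 L)ˣ) + 1 = p * ((p - 1) / 2) := by
  have hpp : p.Prime := Fact.out
  have h3 : 3 ≤ p := by have := hpp.two_le; omega
  have hζ : IsPrimitiveRoot (IsCyclotomicExtension.zeta p ℚ K) p :=
    IsCyclotomicExtension.zeta_spec p ℚ K
  have hζL : IsPrimitiveRoot (algebraMap K L (IsCyclotomicExtension.zeta p ℚ K)) p :=
    hζ.map_of_injective (algebraMap K L).injective
  have hreal : InfinitePlace.nrRealPlaces L = 0 :=
    NumberField.InfinitePlace.IsPrimitiveRoot.nrRealPlaces_eq_zero_of_two_lt (by omega) hζL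
  have hdeg : finrank ℚ L = (p - 1) * p := by
    rw [← Module.finrank_mul_finrank ℚ K L, hpL, IsCyclotomicExtension.finrank (n := p) K
      (Polynomial.cyclotomic.irreducible_rat hpp.pos), Nat.totient_prime hpp]
  have hcard := InfinitePlace.card_add_two_mul_card_eq_rank L
  rw [hreal, zero_add, hdeg] at hcard
  rw [Units.finrank_eq, Units.rank, InfinitePlace.card_eq_nrRealPlaces_add_nrComplexPlaces,
    hreal, zero_add]
  obtain ⟨m, hm⟩ : ∃ m, p - 1 = 2 * m := by
    have hodd : Odd p := hpp.odd_of_ne_two hp2
    obtain ⟨k, hk⟩ := hodd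
    exact ⟨k, by omega⟩
  rw [hm] at hcard ⊢
  have h1 : InfinitePlace.nrComplexPlaces L = m * p := by
    have : 2 * InfinitePlace.nrComplexPlaces L = 2 * (m * p) := by rw [hcard]; ring
    omega
  rw [h1, Nat.mul_div_cancel_left m (by norm_num : 0 < 2)]
  have hm1 : 1 ≤ m := by omega
  have : 1 ≤ m * p := Nat.one_le_iff_ne_zero.mpr (Nat.mul_ne_zero (by omega) (by omega))
  rw [Nat.sub_add_cancel this, mul_comm]

/-- (C3a-3) The unit group of a number field is generated by `rank + 1` elements
(a generator of the torsion subgroup and a fundamental system). -/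
theorem exists_finset_span_units_eq_top (K : Type*) [Field K] [NumberField K] :
    ∃ t : Finset (Additive (𝓞 K)ˣ), Submodule.span ℤ (t : Set (Additive (𝓞 K)ˣ)) = ⊤ ∧
      t.card ≤ finrank ℤ (Additive (𝓞 K)ˣ) + 1 := by
  classical
  obtain ⟨g, hg⟩ := IsCyclic.exists_generator (α := Units.torsion K)
  refine ⟨insert (Additive.ofMul (g : (𝓞 K)ˣ))
    (Finset.univ.image fun i => Additive.ofMul (Units.fundSystem K i)), ?_, ?_⟩
  · have key1 : ∀ y ∈ Subgroup.closure (Set.range (Units.fundSystem K)),
        Additive.ofMul y ∈ Submodule.span ℤ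
        ((insert (Additive.ofMul (g : (𝓞 K)ˣ))
          (Finset.univ.image fun i => Additive.ofMul (Units.fundSystem K i)) : Finset _) :
            Set (Additive (𝓞 K)ˣ)) := by
      intro y hy
      induction hy using Subgroup.closure_induction with
      | mem w hw =>
        obtain ⟨i, rfl⟩ := hw
        exact Submodule.subset_span (by simp)
      | one => exact Submodule.zero_mem _
      | mul a b _ _ ha hb =>
        rw [ofMul_mul]
        exact Submodule.add_mem _ ha hb
      | inv a _ ha =>
        rw [ofMul_inv]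
        exact Submodule.neg_mem _ ha
    have key2 : ∀ z ∈ Units.torsion K,
        Additive.ofMul z ∈ Submodule.span ℤ
        ((insert (Additive.ofMul (g : (𝓞 K)ˣ))
          (Finset.univ.image fun i => Additive.ofMul (Units.fundSystem K i)) : Finset _) :
            Set (Additive (𝓞 K)ˣ)) := by
      intro z hz
      obtain ⟨k, hk⟩ := hg ⟨z, hz⟩
      have : z = (g : (𝓞 K)ˣ) ^ k := by
        have := congrArg Subtype.val hk
        simpa using this.symm
      rw [this, ofMul_zpow]
      exact Submodule.smul_mem _ _ (Submodule.subset_span (by simp))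
    rw [eq_top_iff]
    intro x _
    have hx : Additive.toMul x ∈
        Subgroup.closure (Set.range (Units.fundSystem K)) ⊔ Units.torsion K := by
      rw [Units.closure_fundSystem_sup_torsion_eq_top]; trivial
    rw [Subgroup.mem_sup] at hx
    obtain ⟨y, hy, z, hz, hyz⟩ := hx
    have : x = Additive.ofMul y + Additive.ofMul z := by
      rw [← ofMul_mul, hyz]; rfl
    rw [this]
    exact Submodule.add_mem _ (key1 y hy) (key2 z hz)
  · refine (Finset.card_insert_le _ _).trans ?_
    rw [Units.finrank_eq]
    refine Nat.add_le_add_right ?_ 1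
    exact Finset.card_image_le.trans (by simp)

end Fermat.Agent.Kummer.KL
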