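/-
Kummer's lemma, slice C3b: a Hilbert 92-type statement for `L = K(w^(1/p))` over the `p`-th
cyclotomic field `K`, obtained by applying the abstract index argument of `Abstract92` to the unit
group of `L`.
-/
import Fermat.Agent.Kummer.KL.Abstract92
import Fermat.Agent.Kummer.KL.UnitsRank

set_option autoImplicit false

namespace Fermat.Agent.Kummer.KL

open NumberField Module

section GroupLemma

theorem sum_zsmul_eq {A : Type*} [AddCommGroup A] (a : A) (n : ℕ) :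
    ∑ i ∈ Finset.range n, (i : ℤ) • a = (∑ i ∈ Finset.range n, (i : ℤ)) • a := by
  induction n with
  | zero => simp
  | succ n ih => rw [Finset.sum_range_succ, Finset.sum_range_succ, ih, add_zsmul]

/-- In a finite cyclic group generated by `σ`, a product over the group is a product over the
powers of `σ`. -/
theorem prod_univ_eq_prod_range_pow {G : Type*} [Group G] [Fintype G] (σ : G)
    (hσ : ∀ τ : G, τ ∈ Subgroup.zpowers σ) {M : Type*} [CommMonoid M] (f : G → M) :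
    ∏ τ, f τ = ∏ i ∈ Finset.range (Fintype.card G), f (σ ^ i) := by
  classical
  have hord : orderOf σ = Fintype.card G := by
    rw [← Nat.card_eq_fintype_card]
    exact orderOf_eq_card_of_forall_mem_zpowers hσ
  have himage : (Finset.univ : Finset G) = (Finset.range (orderOf σ)).image (σ ^ ·) := by
    ext τ
    simp only [Finset.mem_univ, true_iff]
    exact (mem_zpowers_iff_mem_range_orderOf).mp (hσ τ)
  rw [himage, Finset.prod_image, hord]
  intro i hi j hj hij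
  exact pow_injOn_Iio_orderOf (by simpa using hi) (by simpa using hj) hij

end GroupLemma

section UnitAction

variable {K L : Type*} [Field K] [Field L] [Algebra K L]

/-- The action of `σ` on the units of `𝓞 L`. -/
noncomputable def unitsAut (σ : L ≃ₐ[K] L) : (𝓞 L)ˣ →* (𝓞 L)ˣ :=
  Units.map ((MulSemiringAction.toRingHom (L ≃ₐ[K] L) (𝓞 L) σ : 𝓞 L →+* 𝓞 L) : 𝓞 L →* 𝓞 L)

theorem coe_unitsAut (σ : L ≃ₐ[K] L) (ε : (𝓞 L)ˣ) :
    ((unitsAut σ ε : (𝓞 L)ˣ) : 𝓞 L) = σ • (ε : 𝓞 L) := rfl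

theorem unitsAut_one (ε : (𝓞 L)ˣ) : unitsAut (1 : L ≃ₐ[K] L) ε = ε := by
  apply Units.ext
  rw [coe_unitsAut, one_smul]

theorem unitsAut_mul (σ τ : L ≃ₐ[K] L) (ε : (𝓞 L)ˣ) :
    unitsAut (σ * τ) ε = unitsAut σ (unitsAut τ ε) := by
  apply Units.ext
  rw [coe_unitsAut, coe_unitsAut, coe_unitsAut, mul_smul]

/-- The action of `σ` on the units of `𝓞 L`, as a `ℤ`-linear map. -/
noncomputable def unitsLin (σ : L ≃ₐ[K] L) : Additive (𝓞 L)ˣ →ₗ[ℤ] Additive (𝓞 L)ˣ :=
  (MonoidHom.toAdditive (unitsAut σ)).toIntLinearMap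

theorem unitsLin_apply (σ : L ≃ₐ[K] L) (e : Additive (𝓞 L)ˣ) :
    unitsLin σ e = Additive.ofMul (unitsAut σ e.toMul) := rfl

theorem unitsLin_one : unitsLin (1 : L ≃ₐ[K] L) = 1 := by
  ext e
  rw [unitsLin_apply, unitsAut_one]
  rfl

theorem unitsLin_mul (σ τ : L ≃ₐ[K] L) : unitsLin (σ * τ) = unitsLin σ * unitsLin τ := by
  ext e
  rw [Module.End.mul_apply, unitsLin_apply, unitsLin_apply, unitsLin_apply, unitsAut_mul]
  rfl

theorem unitsLin_pow (σ : L ≃ₐ[K] L) (i : ℕ) : unitsLin (σ ^ i) = unitsLin σ ^ i := by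
  induction i with
  | zero => rw [pow_zero, pow_zero, unitsLin_one]
  | succ i ih => rw [pow_succ, pow_succ, unitsLin_mul, ih]

/-- The inclusion of the units of `𝓞 K` in the units of `𝓞 L`, as a `ℤ`-linear map. -/
noncomputable def unitsIncl : Additive (𝓞 K)ˣ →ₗ[ℤ] Additive (𝓞 L)ˣ :=
  (MonoidHom.toAdditive (Units.map (algebraMap (𝓞 K) (𝓞 L) : 𝓞 K →* 𝓞 L))).toIntLinearMap

theorem unitsIncl_apply (e : Additive (𝓞 K)ˣ) :
    (unitsIncl (K := K) (L := L) e) =
      Additive.ofMul (Units.map (algebraMap (𝓞 K) (𝓞 L) : 𝓞 K →* 𝓞 L) e.toMul) := rfl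

theorem unitsIncl_injective : Function.Injective (unitsIncl (K := K) (L := L)) := by
  intro a b hab
  have h1 : Units.map (algebraMap (𝓞 K) (𝓞 L) : 𝓞 K →* 𝓞 L) a.toMul =
      Units.map (algebraMap (𝓞 K) (𝓞 L) : 𝓞 K →* 𝓞 L) b.toMul := by
    have := congrArg Additive.toMul hab
    simpa [unitsIncl_apply] using this
  have h2 : algebraMap (𝓞 K) (𝓞 L) (a.toMul : 𝓞 K) = algebraMap (𝓞 K) (𝓞 L) (b.toMul : 𝓞 K) :=
    congrArg Units.val h1
  have h3 : (a.toMul : 𝓞 K) = (b.toMul : 𝓞 K) :=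
    FaithfulSMul.algebraMap_injective (𝓞 K) (𝓞 L) h2
  exact congrArg Additive.ofMul (Units.ext h3)

theorem unitsAut_map_algebraMap (σ : L ≃ₐ[K] L) (u : (𝓞 K)ˣ) :
    unitsAut σ (Units.map (algebraMap (𝓞 K) (𝓞 L) : 𝓞 K →* 𝓞 L) u) =
      Units.map (algebraMap (𝓞 K) (𝓞 L) : 𝓞 K →* 𝓞 L) u := by
  apply Units.ext
  rw [coe_unitsAut]
  apply RingOfIntegers.ext
  change σ (algebraMap (𝓞 L) L (algebraMap (𝓞 K) (𝓞 L) (u : 𝓞 K))) = _
  rw [← IsScalarTower.algebraMap_apply, IsScalarTower.algebraMap_apply (𝓞 K) K L, σ.commutes]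
  rfl

theorem unitsLin_unitsIncl (σ : L ≃ₐ[K] L) (e : Additive (𝓞 K)ˣ) :
    unitsLin σ (unitsIncl e) = unitsIncl e :=
  congrArg Additive.ofMul (unitsAut_map_algebraMap σ e.toMul)

end UnitAction

section Norm

variable {K L : Type*} [Field K] [Field L] [NumberField K] [NumberField L] [Algebra K L]
  [IsGalois K L]

/-- The coercion `(𝓞 L)ˣ → L` as a monoid homomorphism. -/
noncomputable def unitsCoe (L : Type*) [Field L] : (𝓞 L)ˣ →* L :=
  ((algebraMap (𝓞 L) L : 𝓞 L →+* L) : 𝓞 L →* L).comp (Units.coeHom (𝓞 L))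

omit [NumberField L] in
theorem unitsCoe_apply (ε : (𝓞 L)ˣ) : unitsCoe L ε = ((ε : 𝓞 L) : L) := rfl

omit [NumberField L] in
theorem unitsCoe_injective : Function.Injective (unitsCoe L) := by
  intro a b hab
  exact Units.ext (RingOfIntegers.ext hab)

omit [NumberField K] [NumberField L] [IsGalois K L] in
theorem unitsCoe_unitsAut (σ : L ≃ₐ[K] L) (ε : (𝓞 L)ˣ) :
    unitsCoe L (unitsAut σ ε) = σ (unitsCoe L ε) := rfl

/-- The norm `N = ∑ σ ^ i` on the units of `𝓞 L` is the composite of the relative norm to `𝓞 K`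
and the inclusion. -/
theorem sum_unitsLin_pow_apply {p : ℕ} (hpL : finrank K L = p) (σ : L ≃ₐ[K] L)
    (hσ : ∀ τ : L ≃ₐ[K] L, τ ∈ Subgroup.zpowers σ) (e : Additive (𝓞 L)ˣ) :
    (∑ i ∈ Finset.range p, unitsLin σ ^ i) e =
      unitsIncl (Additive.ofMul (Units.map (RingOfIntegers.norm K : 𝓞 L →* 𝓞 K) e.toMul)) := by
  classical
  haveI : FiniteDimensional K L := FiniteDimensional.of_finrank_pos (by
    rw [hpL]; rcases Nat.eq_zero_or_pos p with h | h
    · exfalso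
      have := hpL
      rw [h] at this
      have hpos : 0 < finrank K L := finrank_pos
      omega
    · exact h)
  have hcard : Fintype.card (L ≃ₐ[K] L) = p := by
    rw [← Nat.card_eq_fintype_card, IsGalois.card_aut_eq_finrank, hpL]
  set ε : (𝓞 L)ˣ := e.toMul with hε
  -- LHS as a product
  have hL : (∑ i ∈ Finset.range p, unitsLin σ ^ i) e =
      Additive.ofMul (∏ i ∈ Finset.range p, unitsAut (σ ^ i) ε) := by
    rw [LinearMap.sum_apply, ofMul_prod]
    refine Finset.sum_congr rfl (fun i _ => ?_)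
    rw [← unitsLin_pow, unitsLin_apply]
  rw [hL, unitsIncl_apply]
  congr 1
  apply unitsCoe_injective
  rw [map_prod]
  simp only [unitsCoe_unitsAut]
  have h1 : unitsCoe L (Units.map (algebraMap (𝓞 K) (𝓞 L) : 𝓞 K →* 𝓞 L)
      (Additive.toMul (Additive.ofMul (Units.map (RingOfIntegers.norm K : 𝓞 L →* 𝓞 K) ε)))) =
      algebraMap K L (Algebra.norm K (unitsCoe L ε)) := by
    exact RingOfIntegers.coe_algebraMap_norm K (ε : 𝓞 L)
  rw [h1, Algebra.norm_eq_prod_automorphisms,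
    prod_univ_eq_prod_range_pow σ hσ (fun τ => τ (unitsCoe L ε)), hcard]

end Norm

section Main

variable {p : ℕ} [hp : Fact p.Prime]
  {K : Type*} [Field K] [NumberField K] [IsCyclotomicExtension {p} ℚ K]
  {L : Type*} [Field L] [NumberField L] [Algebra K L] [IsGalois K L]

omit hp [NumberField K] [IsCyclotomicExtension {p} ℚ K] [NumberField L] in
theorem unitsLin_pow_card (hpL : finrank K L = p) (hp0 : p ≠ 0) (σ : L ≃ₐ[K] L) :
    unitsLin σ ^ p = 1 := by
  have hpos : 0 < finrank K L := by rw [hpL]; exact Nat.pos_of_ne_zero hp0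
  haveI : FiniteDimensional K L := FiniteDimensional.of_finrank_pos hpos
  rw [← unitsLin_pow, ← unitsLin_one (K := K) (L := L)]
  congr 1
  have h := pow_card_eq_one' (G := L ≃ₐ[K] L) (x := σ)
  rwa [IsGalois.card_aut_eq_finrank, hpL] at h

/-- (C3b) Hilbert 92-type statement for `L = K(w^(1/p))`. -/
theorem exists_unit_norm_eq_one_forall_ne (hp2 : p ≠ 2)
    {ζ : K} (hζ : IsPrimitiveRoot ζ p)
    (hpL : finrank K L = p) (σ : L ≃ₐ[K] L) (hσ : ∀ τ : L ≃ₐ[K] L, τ ∈ Subgroup.zpowers σ)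
    (w : (𝓞 K)ˣ) (hw : ¬ ∃ v : (𝓞 K)ˣ, w = v ^ p)
    (x : (𝓞 L)ˣ) (hx : (x : 𝓞 L) ^ p = algebraMap (𝓞 K) (𝓞 L) (w : 𝓞 K))
    (hσx : σ • (x : 𝓞 L) = algebraMap (𝓞 K) (𝓞 L) hζ.toInteger * (x : 𝓞 L)) :
    ∃ η : (𝓞 L)ˣ, Algebra.norm K (((η : (𝓞 L)ˣ) : 𝓞 L) : L) = 1 ∧
      ∀ ε : (𝓞 L)ˣ, (η : 𝓞 L) * σ • (ε : 𝓞 L) ≠ (ε : 𝓞 L) := by
  classical
  have hpp : p.Prime := hp.out
  have hp0 : p ≠ 0 := hpp.ne_zero
  haveI : NeZero p := ⟨hp0⟩
  have hodd : Odd p := hpp.odd_of_ne_two hp2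
  set s := (p - 1) / 2 with hs
  have hps : p = 2 * s + 1 := by
    obtain ⟨k, hk⟩ := hodd
    omega
  set S : Additive (𝓞 L)ˣ →ₗ[ℤ] Additive (𝓞 L)ˣ := unitsLin σ with hS
  have hSp : S ^ p = 1 := unitsLin_pow_card hpL hp0 σ
  set ι : Additive (𝓞 K)ˣ →ₗ[ℤ] Additive (𝓞 L)ˣ := unitsIncl with hι
  have hιinj : Function.Injective ι := unitsIncl_injective
  set F : Submodule ℤ (Additive (𝓞 L)ˣ) := LinearMap.range ι with hFdef
  have hF : ∀ f ∈ F, S f = f := by
    rintro _ ⟨e, rfl⟩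
    exact unitsLin_unitsIncl σ e
  have hNm : ∀ e, (∑ i ∈ Finset.range p, S ^ i) e =
      ι (Additive.ofMul (Units.map (RingOfIntegers.norm K : 𝓞 L →* 𝓞 K) e.toMul)) :=
    fun e => sum_unitsLin_pow_apply hpL σ hσ e
  have hN : ∀ e, (∑ i ∈ Finset.range p, S ^ i) e ∈ F := fun e => ⟨_, (hNm e).symm⟩
  have hE : finrank ℤ (Additive (𝓞 L)ˣ) + 1 = p * s := finrank_units_of_finrank_eq hp2 K L hpL
  have hKr : finrank ℤ (Additive (𝓞 K)ˣ) + 1 = s := finrank_units_cyclotomic hp2 K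
  have hFr : finrank ℤ F + 1 = s := by
    rw [← hKr]
    congr 1
    exact (LinearEquiv.ofInjective ι hιinj).symm.finrank_eq
  obtain ⟨t₀, ht₀, ht₀c⟩ := exists_finset_span_units_eq_top K
  rw [hKr] at ht₀c
  let t : Finset F := t₀.image ι.rangeRestrict
  have ht : Submodule.span ℤ (t : Set F) = ⊤ := by
    rw [Finset.coe_image, Submodule.span_image, ht₀, Submodule.map_top,
      LinearMap.range_rangeRestrict]
  have htc : t.card ≤ s := Finset.card_image_le.trans ht₀c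
  -- the root of unity as a unit of `𝓞 K`
  have hζunit : IsUnit hζ.toInteger := hζ.toInteger_isPrimitiveRoot.isUnit hp0
  obtain ⟨ζu, hζu⟩ := hζunit
  have hζup : ζu ^ p = 1 := by
    apply Units.ext
    rw [Units.val_pow_eq_pow_val, hζu, Units.val_one]
    exact hζ.toInteger_isPrimitiveRoot.pow_eq_one
  set z₀ : Additive (𝓞 K)ˣ := Additive.ofMul ζu with hz₀
  have hz₀p : (p : ℤ) • z₀ = 0 := by
    rw [natCast_zsmul, hz₀, ← ofMul_pow, hζup, ofMul_one]
  set xE : Additive (𝓞 L)ˣ := Additive.ofMul x with hxE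
  have hSx : S xE = xE + ι z₀ := by
    rw [hS, unitsLin_apply, hι, unitsIncl_apply, hxE, ← ofMul_mul]
    congr 1
    apply Units.ext
    rw [coe_unitsAut]
    change σ • (x : 𝓞 L) = (x : 𝓞 L) * algebraMap (𝓞 K) (𝓞 L) (ζu : 𝓞 K)
    rw [hσx, hζu, mul_comm]
  have hSz : S (ι z₀) = ι z₀ := hF _ ⟨z₀, rfl⟩
  have hSpow : ∀ i : ℕ, (S ^ i) xE = xE + (i : ℤ) • ι z₀ := by
    intro i
    induction i with
    | zero => simp
    | succ i ih =>
      rw [pow_succ, Module.End.mul_apply, hSx, map_add, ih]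
      have : (S ^ i) (ι z₀) = ι z₀ := by
        clear ih
        induction i with
        | zero => simp
        | succ i ih => rw [pow_succ, Module.End.mul_apply, hSz, ih]
      rw [this]
      push_cast
      rw [add_one_zsmul, add_assoc]
  have hpxE : (p : ℤ) • xE = ι (Additive.ofMul w) := by
    rw [natCast_zsmul, hxE, ← ofMul_pow, hι, unitsIncl_apply]
    congr 1
    apply Units.ext
    rw [Units.val_pow_eq_pow_val]
    exact hx
  have hNx : (∑ i ∈ Finset.range p, S ^ i) xE = ι (Additive.ofMul w) := by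
    have hsum : (∑ i ∈ Finset.range p, (i : ℤ)) = (s : ℤ) * (p : ℤ) := by
      have h := Finset.sum_range_id_mul_two p
      have h' : (∑ i ∈ Finset.range p, i) = s * p := by
        have : p * (p - 1) = (s * p) * 2 := by
          have hp1 : p - 1 = 2 * s := by omega
          rw [hp1]; ring
        rw [this] at h
        exact Nat.eq_of_mul_eq_mul_right (by norm_num) h
      rw [← Nat.cast_sum, h']
      push_cast
      rfl
    have h1 : ∀ i ∈ Finset.range p, (S ^ i) xE = xE + (i : ℤ) • ι z₀ := fun i _ => hSpow i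
    have h3 : ((s : ℤ) * (p : ℤ)) • ι z₀ = 0 := by
      rw [mul_zsmul, ← map_zsmul ι, hz₀p, map_zero, zsmul_zero]
    calc (∑ i ∈ Finset.range p, S ^ i) xE = ∑ i ∈ Finset.range p, (S ^ i) xE :=
          LinearMap.sum_apply _ _ _
      _ = ∑ i ∈ Finset.range p, (xE + (i : ℤ) • ι z₀) := Finset.sum_congr rfl h1
      _ = (p : ℤ) • xE + (∑ i ∈ Finset.range p, (i : ℤ)) • ι z₀ := by
          rw [Finset.sum_add_distrib, Finset.sum_const, Finset.card_range, sum_zsmul_eq,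
            natCast_zsmul]
      _ = ι (Additive.ofMul w) + ((s : ℤ) * (p : ℤ)) • ι z₀ := by rw [hpxE, hsum]
      _ = ι (Additive.ofMul w) := by rw [h3, add_zero]
  -- `x` is torsion modulo ...
  have hxtors : S xE - xE ∈ Submodule.torsion ℤ (Additive (𝓞 L)ˣ) := by
    rw [hSx, add_sub_cancel_left, Submodule.mem_torsion_iff]
    refine ⟨⟨(p : ℤ), mem_nonZeroDivisors_of_ne_zero (by exact_mod_cast hp0)⟩, ?_⟩
    change (p : ℤ) • ι z₀ = 0
    rw [← map_smul, hz₀p, map_zero]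
  have hxnot : xE ∉ LinearMap.range (S - 1) ⊔ F := by
    intro hmem
    obtain ⟨r, ⟨e', rfl⟩, f, ⟨f₀, rfl⟩, hsum⟩ := Submodule.mem_sup.mp hmem
    have h1 : (∑ i ∈ Finset.range p, S ^ i) xE = (p : ℤ) • ι f₀ := by
      rw [← hsum, map_add, norm_comp_sub_one p S hSp e', zero_add,
        norm_apply_of_mem p S F hF ⟨f₀, rfl⟩]
    rw [hNx, ← map_smul] at h1
    have h2 : Additive.ofMul w = (p : ℤ) • f₀ := hιinj h1
    apply hw
    refine ⟨f₀.toMul, ?_⟩
    have h3 := congrArg Additive.toMul h2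
    rw [natCast_zsmul, toMul_nsmul] at h3
    exact h3
  obtain ⟨ηE, hη0, hηnot⟩ := exists_norm_eq_zero_not_mem_range p S hSp F hF hN s hE hFr t ht htc
    xE hxtors hxnot
  refine ⟨ηE.toMul, ?_, ?_⟩
  · have h1 : ι (Additive.ofMul (Units.map (RingOfIntegers.norm K : 𝓞 L →* 𝓞 K) ηE.toMul)) = 0 := by
      rw [← hNm, hη0]
    have h2 : Additive.ofMul (Units.map (RingOfIntegers.norm K : 𝓞 L →* 𝓞 K) ηE.toMul) = 0 :=
      hιinj (by rw [h1, map_zero])
    have h3 : Units.map (RingOfIntegers.norm K : 𝓞 L →* 𝓞 K) ηE.toMul = 1 := h2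
    have h4 : RingOfIntegers.norm K ((ηE.toMul : (𝓞 L)ˣ) : 𝓞 L) = 1 := congrArg Units.val h3
    have h5 := congrArg (fun a : 𝓞 K => (a : K)) h4
    simp only [RingOfIntegers.coe_norm] at h5
    exact h5
  · intro ε hε
    apply hηnot
    refine ⟨- Additive.ofMul ε, ?_⟩
    have h1 : ηE.toMul * unitsAut σ ε = ε := Units.ext hε
    have h2 : ηE.toMul = ε * (unitsAut σ ε)⁻¹ := eq_mul_inv_of_mul_eq h1
    change (S - 1) (- Additive.ofMul ε) = ηE
    rw [map_neg, LinearMap.sub_apply, Module.End.one_apply, neg_sub, hS, unitsLin_apply]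
    change Additive.ofMul ε - Additive.ofMul (unitsAut σ ε) = ηE
    rw [← ofMul_div, div_eq_mul_inv, ← h2]
    rfl

end Main

end Fermat.Agent.Kummer.KL
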