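-- Kummer lemma slice C1a: a unit congruent to an integer mod `p` has `(p-1)`-th power
-- congruent to `1` mod `(ζ - 1) ^ p`.
import Mathlib

set_option autoImplicit false

namespace Fermat.Agent.Kummer.KL

open NumberField

namespace Reduce

/-- If `B` is a finite free `A`-algebra, `f : A → k` a ring hom to a reduced ring killing `a`,
and some power of `x : B` is divisible by `a`, then `f` kills the trace of `x`. -/
theorem map_trace_eq_zero_of_dvd_pow {A B k : Type*} [CommRing A] [CommRing B] [Algebra A B]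
    [Module.Free A B] [Module.Finite A B] [CommRing k] [IsReduced k] (f : A →+* k)
    (a : A) (ha : f a = 0) (x : B) (m : ℕ) (h : algebraMap A B a ∣ x ^ m) :
    f (Algebra.trace A B x) = 0 := by
  classical
  let ι := Module.Free.ChooseBasisIndex A B
  let b : Module.Basis ι A B := Module.Free.chooseBasis _ _
  have : Fintype ι := inferInstance
  rw [Algebra.trace_eq_matrix_trace b]
  set M := Algebra.leftMulMatrix b x with hM
  obtain ⟨y, hy⟩ := h
  have hMk : M ^ m = a • Algebra.leftMulMatrix b y := by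
    rw [hM, ← map_pow, hy, ← map_smul, Algebra.smul_def]
  have hnil : IsNilpotent (M.map f) := by
    refine ⟨m, ?_⟩
    rw [← Matrix.map_pow, hMk]
    ext i j
    simp [ha]
  have htr := Matrix.isNilpotent_trace_of_isNilpotent hnil
  have h0 : (M.map f).trace = 0 := htr.eq_zero
  rw [← h0]
  simp [Matrix.trace]


/-- Every element of the `p`-th cyclotomic ring is congruent to a rational integer modulo
`ζ - 1`. -/
theorem exists_int_sub_dvd {p : ℕ} [Fact p.Prime]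
    {K : Type*} [Field K] [NumberField K] [IsCyclotomicExtension {p} ℚ K]
    {ζ : K} (hζ : IsPrimitiveRoot ζ p) (c : 𝓞 K) :
    ∃ c0 : ℤ, hζ.toInteger - 1 ∣ c - (c0 : 𝓞 K) := by
  obtain ⟨f, hf⟩ := hζ.integralPowerBasis.exists_eq_aeval' c
  rw [hζ.integralPowerBasis_gen] at hf
  refine ⟨f.eval 1, ?_⟩
  have h1 := Polynomial.sub_dvd_eval_sub hζ.toInteger 1 (f.map (algebraMap ℤ (𝓞 K)))
  rw [Polynomial.eval_map_algebraMap, Polynomial.eval_map, Polynomial.eval₂_at_one] at h1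
  rw [hf]
  simpa using h1

end Reduce

open Reduce in
/-- (C1a) If a unit `u` of the `p`-th cyclotomic ring is congruent to a rational integer modulo
`p`, then `u ^ (p - 1)` is congruent to `1` modulo `(ζ - 1) ^ p`. -/
theorem zeta_sub_one_pow_dvd_pow_sub_one {p : ℕ} [Fact p.Prime] (hp2 : p ≠ 2)
    {K : Type*} [Field K] [NumberField K] [IsCyclotomicExtension {p} ℚ K]
    {ζ : K} (hζ : IsPrimitiveRoot ζ p) (u : (𝓞 K)ˣ) (n : ℤ)
    (h : (p : 𝓞 K) ∣ (u : 𝓞 K) - (n : 𝓞 K)) :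
    (hζ.toInteger - 1) ^ p ∣ ((u ^ (p - 1) : (𝓞 K)ˣ) : 𝓞 K) - 1 := by
  have hp : p.Prime := Fact.out
  set π : 𝓞 K := hζ.toInteger - 1 with hπ
  have hπprime : Prime π := hζ.zeta_sub_one_prime'
  have hπp : π ∣ (p : 𝓞 K) := hζ.toInteger_sub_one_dvd_prime'
  have hassoc : Associated (π ^ (p - 1)) (p : 𝓞 K) :=
    IsCyclotomicExtension.Rat.associated_zeta_sub_one_pow_prime p hζ
  have hdvd_iff : ∀ m : ℤ, π ∣ (m : 𝓞 K) ↔ (p : ℤ) ∣ m := fun m =>
    IsCyclotomicExtension.Rat.zeta_sub_one_dvd_intCast_iff' p hζ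
  -- Step 1: `p ∤ n`
  have hpn : ¬ (p : ℤ) ∣ n := by
    intro hdiv
    have h1 : π ∣ (n : 𝓞 K) := (hdvd_iff n).mpr hdiv
    have h2 : π ∣ (u : 𝓞 K) := by
      have := dvd_add (hπp.trans h) h1
      simpa using this
    exact hπprime.not_isUnit (isUnit_of_dvd_unit h2 u.isUnit)
  -- Step 2: `p ∣ u^(p-1) - 1`
  have hflt : (p : ℤ) ∣ n ^ (p - 1) - 1 := by
    have hcop : IsCoprime n (p : ℤ) :=
      ((Nat.prime_iff_prime_int.mp hp).coprime_iff_not_dvd.mpr hpn).symm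
    exact (Int.ModEq.pow_card_sub_one_eq_one hp hcop).symm.dvd
  have hstep2 : (p : 𝓞 K) ∣ (u : 𝓞 K) ^ (p - 1) - 1 := by
    have h1 : (p : 𝓞 K) ∣ (u : 𝓞 K) ^ (p - 1) - (n : 𝓞 K) ^ (p - 1) :=
      h.trans (sub_dvd_pow_sub_pow _ _ _)
    have h2 : (p : 𝓞 K) ∣ (n : 𝓞 K) ^ (p - 1) - 1 := by
      have := (Int.castRingHom (𝓞 K)).map_dvd hflt
      simpa using this
    have := dvd_add h1 h2
    simpa using this
  obtain ⟨c, hc⟩ := hstep2
  -- Step 3: norm of `u^(p-1)` is `1`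
  have hnorm : Algebra.norm ℤ ((u : 𝓞 K) ^ (p - 1)) = 1 := by
    rw [map_pow]
    have hu : IsUnit (Algebra.norm ℤ (u : 𝓞 K)) := u.isUnit.map (Algebra.norm ℤ)
    rcases Int.isUnit_iff.mp hu with h1 | h1
    · rw [h1, one_pow]
    · rw [h1]
      exact (hp.even_sub_one hp2).neg_one_pow
  -- Step 4: `p ∣ Tr c`
  have htr : (p : ℤ) ∣ Algebra.trace ℤ (𝓞 K) c := by
    obtain ⟨r, hr⟩ := Algebra.norm_one_add_smul (p : ℤ) c
    have hu1 : (u : 𝓞 K) ^ (p - 1) = 1 + (p : ℤ) • c := by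
      rw [zsmul_eq_mul]
      push_cast
      rw [← hc]
      ring
    rw [← hu1, hnorm] at hr
    have hp0 : (p : ℤ) ≠ 0 := by exact_mod_cast hp.ne_zero
    have : (p : ℤ) * (Algebra.trace ℤ (𝓞 K) c + r * p) = 0 := by linarith
    have h3 := (mul_eq_zero.mp this).resolve_left hp0
    exact ⟨-r, by linarith⟩
  -- Step 5: `π ∣ c`
  obtain ⟨c0, d, hd⟩ := exists_int_sub_dvd hζ c
  have htrd : (p : ℤ) ∣ Algebra.trace ℤ (𝓞 K) (π * d) := by
    have := map_trace_eq_zero_of_dvd_pow (Int.castRingHom (ZMod p)) (p : ℤ) (by simp)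
      (π * d) (p - 1) (by
        rw [mul_pow]
        refine Dvd.dvd.mul_right ?_ _
        simpa using hassoc.symm.dvd)
    exact (ZMod.intCast_zmod_eq_zero_iff_dvd _ _).mp this
  have hfr : Module.finrank ℤ (𝓞 K) = p - 1 := by
    rw [RingOfIntegers.rank, IsCyclotomicExtension.Rat.finrank p K, Nat.totient_prime hp]
  have hc0 : (p : ℤ) ∣ c0 := by
    have hceq : c = (c0 : 𝓞 K) + π * d := by rw [← hd]; ring
    have htrc : Algebra.trace ℤ (𝓞 K) c = ((p - 1 : ℕ) : ℤ) * c0 + Algebra.trace ℤ (𝓞 K) (π * d) := by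
      rw [hceq, map_add]
      congr 1
      have : (c0 : 𝓞 K) = algebraMap ℤ (𝓞 K) c0 := by simp
      rw [this, Algebra.trace_algebraMap, hfr]
      simp
    rw [htrc] at htr
    have h4 : (p : ℤ) ∣ ((p - 1 : ℕ) : ℤ) * c0 := (dvd_add_left htrd).mp htr
    have h5 : ((p - 1 : ℕ) : ℤ) = (p : ℤ) - 1 := by
      rw [Nat.cast_sub hp.one_le]; simp
    rw [h5] at h4
    have h6 : (p : ℤ) ∣ (p : ℤ) * c0 - ((p : ℤ) - 1) * c0 := dvd_sub (dvd_mul_right _ _) h4
    have h7 : (p : ℤ) * c0 - ((p : ℤ) - 1) * c0 = c0 := by ring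
    rwa [h7] at h6
  have hπc : π ∣ c := by
    have h1 : π ∣ (c0 : 𝓞 K) := (hdvd_iff c0).mpr hc0
    have : c = (c0 : 𝓞 K) + π * d := by rw [← hd]; ring
    rw [this]
    exact dvd_add h1 (dvd_mul_right _ _)
  -- Step 6: conclusion
  obtain ⟨e, he⟩ := hπc
  have hgoal : ((u ^ (p - 1) : (𝓞 K)ˣ) : 𝓞 K) - 1 = (p : 𝓞 K) * π * e := by
    push_cast
    rw [hc, he]
    ring
  rw [hgoal]
  refine Dvd.dvd.mul_right ?_ _
  have hpp : p = (p - 1) + 1 := (Nat.sub_add_cancel hp.one_le).symm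
  conv_lhs => rw [hpp, pow_succ]
  exact mul_dvd_mul_right hassoc.dvd _


end Fermat.Agent.Kummer.KL
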