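/-
Kummer lemma slice C1b: `K(w^{1/p})/K` is unramified when `w ≡ 1 mod (ζ - 1)^p`.
-/
import Mathlib

set_option autoImplicit false

namespace Fermat.Agent.Kummer.KL

open NumberField Module Polynomial

namespace Unramified

/-- In any commutative ring, if `π ^ p ∣ w - 1` and `π ^ p ∣ p * π`, there is a polynomial `g` with
`π ^ p * g = (π X + 1) ^ p - w`. -/
theorem exists_poly {R : Type*} [CommRing R] {p : ℕ} (hp : p.Prime) (π w : R)
    (hw : π ^ p ∣ w - 1) (hpπ : π ^ p ∣ (p : R) * π) :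
    ∃ g : R[X], C (π ^ p) * g = (C π * X + 1) ^ p - C w := by
  obtain ⟨r, hr⟩ := exists_add_pow_prime_eq hp (C π * X : R[X]) 1
  obtain ⟨a, ha⟩ := hw
  obtain ⟨b, hb⟩ := hpπ
  refine ⟨X ^ p + C b * X * r - C a, ?_⟩
  have h1 : C w = C (π ^ p) * C a + 1 := by
    rw [← C_mul, ← ha]; simp
  have h2 : (p : R[X]) * C π = C (π ^ p) * C b := by
    rw [← C_mul, ← hb]; simp
  rw [hr, h1]
  have : (p : R[X]) * (C π * X) * 1 * r = (p : R[X]) * C π * (X * r) := by ring
  rw [this, h2]
  simp only [C_pow]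
  ring

end Unramified


/-- (C1b) Let `K` be the `p`-th cyclotomic field, `w` a unit of `𝓞 K` congruent to `1` modulo
`(ζ - 1) ^ p`, and `L = K(x)` with `x ^ p = w`, of degree `p` over `K`.  Then `L / K` is unramified
everywhere: the different ideal is trivial. -/
theorem differentIdeal_eq_top_of_pow_dvd {p : ℕ} [Fact p.Prime] (hp2 : p ≠ 2)
    {K : Type*} [Field K] [NumberField K] [IsCyclotomicExtension {p} ℚ K]
    {L : Type*} [Field L] [NumberField L] [Algebra K L]
    {ζ : K} (hζ : IsPrimitiveRoot ζ p) (w : (𝓞 K)ˣ)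
    (hw : (hζ.toInteger - 1) ^ p ∣ (w : 𝓞 K) - 1)
    (hpL : finrank K L = p) (x : L) (hx : x ^ p = algebraMap K L ((w : 𝓞 K) : K))
    (hxL : Algebra.adjoin K {x} = ⊤) :
    differentIdeal (𝓞 K) (𝓞 L) = ⊤ := by
  have hp : p.Prime := Fact.out
  have hp1 : 1 ≤ p := hp.one_lt.le
  have : FiniteDimensional K L := FiniteDimensional.of_finrank_pos (by rw [hpL]; exact hp.pos)
  set π : 𝓞 K := hζ.toInteger - 1 with hπ
  have hπ0 : π ≠ 0 := (hζ.zeta_sub_one_prime').ne_zero
  obtain ⟨u, hu⟩ := IsCyclotomicExtension.Rat.associated_zeta_sub_one_pow_prime p hζ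
  rw [← hπ] at hu
  have hpπ' : (p : 𝓞 K) * π = π ^ p * u := by
    rw [← hu]
    conv_rhs => rw [← Nat.sub_add_cancel hp1, pow_succ]
    ring
  obtain ⟨g, hg⟩ := Unramified.exists_poly hp π (w : 𝓞 K) hw ⟨u, hpπ'⟩
  -- `g` is monic
  have hgmonic : g.Monic := by
    have hlin : (C π * X + 1 : (𝓞 K)[X]) = C π * X + C 1 := by simp
    have hdeg : ((C π * X + 1 : (𝓞 K)[X]) ^ p).degree = p := by
      rw [hlin, degree_pow, degree_linear hπ0]; simp
    have hlt : (C (w : 𝓞 K) : (𝓞 K)[X]).degree < ((C π * X + 1 : (𝓞 K)[X]) ^ p).degree := by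
      rw [hdeg]
      exact lt_of_le_of_lt degree_C_le (by exact_mod_cast hp.pos)
    have hlead := congrArg leadingCoeff hg
    rw [leadingCoeff_mul, leadingCoeff_C, leadingCoeff_sub_of_degree_lt hlt, leadingCoeff_pow,
      hlin, leadingCoeff_linear hπ0] at hlead
    exact mul_left_cancel₀ (pow_ne_zero _ hπ0) (hlead.trans (mul_one _).symm)
  -- the element `y`
  set πL : L := algebraMap (𝓞 K) L π with hπL
  have hπL0 : πL ≠ 0 := by
    rw [hπL, Ne, FaithfulSMul.algebraMap_eq_zero_iff]; exact hπ0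
  set y : L := (x - 1) / πL with hy
  have hxy : x = πL * y + 1 := by
    rw [hy]; field_simp; ring
  have hwL : algebraMap (𝓞 K) L (w : 𝓞 K) = x ^ p := by
    rw [hx]; rfl
  have hgy : aeval y g = 0 := by
    have h1 := congrArg (aeval y) hg
    simp only [map_mul, aeval_C, map_sub, map_pow, map_add, aeval_X, map_one] at h1
    rw [← hπL, ← hxy, hwL, sub_self] at h1
    exact (mul_eq_zero.mp h1).resolve_left (pow_ne_zero _ hπL0)
  have hyint : IsIntegral (𝓞 K) y := ⟨g, hgmonic, by rwa [← aeval_def]⟩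
  -- `y` as an element of `𝓞 L`
  set yB : 𝓞 L := IsIntegralClosure.mk' (𝓞 L) y hyint with hyB
  have hyBL : algebraMap (𝓞 L) L yB = y := IsIntegralClosure.algebraMap_mk' (𝓞 L) y hyint
  have hinj : Function.Injective (algebraMap (𝓞 L) L) := RingOfIntegers.coe_injective
  have hyBint : IsIntegral (𝓞 K) yB := Algebra.IsIntegral.isIntegral yB
  have hgyB : aeval yB g = 0 := by
    apply hinj
    rw [← aeval_algebraMap_apply, hyBL, hgy, map_zero]
  -- `x` as an element of `𝓞 L`, a unit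
  set xB : 𝓞 L := algebraMap (𝓞 K) (𝓞 L) π * yB + 1 with hxB
  have hxBL : algebraMap (𝓞 L) L xB = x := by
    rw [hxB, map_add, map_mul, map_one, hyBL, ← IsScalarTower.algebraMap_apply, ← hπL, ← hxy]
  have hxBp : xB ^ p = algebraMap (𝓞 K) (𝓞 L) (w : 𝓞 K) := by
    apply hinj
    rw [map_pow, hxBL, ← IsScalarTower.algebraMap_apply, hwL]
  have hxBunit : IsUnit xB := by
    have : IsUnit (xB ^ p) := by
      rw [hxBp]; exact (w.isUnit).map _
    exact (isUnit_pow_iff hp.ne_zero).mp this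
  -- the derivative
  have hder : aeval yB (derivative g) = algebraMap (𝓞 K) (𝓞 L) (u : 𝓞 K) * xB ^ (p - 1) := by
    have h1 := congrArg (fun f => aeval yB (derivative f)) hg
    simp only [derivative_mul, derivative_C, zero_mul, zero_add, derivative_sub, derivative_pow,
      derivative_add, derivative_X, mul_one, derivative_one, add_zero, sub_zero, map_mul, aeval_C,
      map_pow, map_add, aeval_X, map_one, map_natCast, map_zero, mul_zero] at h1
    rw [← hxB] at h1
    have h2 : algebraMap (𝓞 K) (𝓞 L) π ^ p * aeval yB (derivative g) =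
        algebraMap (𝓞 K) (𝓞 L) π ^ p * (algebraMap (𝓞 K) (𝓞 L) (u : 𝓞 K) * xB ^ (p - 1)) := by
      have h3 := congrArg (algebraMap (𝓞 K) (𝓞 L)) hpπ'
      simp only [map_mul, map_natCast, map_pow] at h3
      linear_combination h1 + xB ^ (p - 1) * h3
    have hπB0 : algebraMap (𝓞 K) (𝓞 L) π ≠ 0 := by
      rw [Ne, FaithfulSMul.algebraMap_eq_zero_iff]; exact hπ0
    exact mul_left_cancel₀ (pow_ne_zero _ hπB0) h2
  have hderunit : IsUnit (aeval yB (derivative g)) := by
    rw [hder]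
    exact ((u.isUnit).map _).mul (hxBunit.pow _)
  -- the minimal polynomial
  obtain ⟨q, hq⟩ := minpoly.isIntegrallyClosed_dvd hyBint hgyB
  have hmunit : IsUnit (aeval yB (derivative (minpoly (𝓞 K) yB))) := by
    rw [hq, derivative_mul, map_add, map_mul, map_mul, minpoly.aeval, zero_mul, add_zero]
      at hderunit
    exact isUnit_of_mul_isUnit_left hderunit
  -- adjoin
  have hadj : Algebra.adjoin K {algebraMap (𝓞 L) L yB} = ⊤ := by
    rw [hyBL, eq_top_iff, ← hxL]
    apply Algebra.adjoin_le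
    rintro _ rfl
    rw [hxy]
    refine Subalgebra.add_mem _ (Subalgebra.mul_mem _ ?_ (Algebra.subset_adjoin rfl))
      (Subalgebra.one_mem _)
    rw [hπL, IsScalarTower.algebraMap_apply (𝓞 K) K L]
    exact Subalgebra.algebraMap_mem _ _
  exact Ideal.eq_top_of_isUnit_mem _ (aeval_derivative_mem_differentIdeal (𝓞 K) K L yB hadj) hmunit
end Fermat.Agent.Kummer.KL
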